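/-
S14 / H1 (first inequality), ideal-theoretic lemmas (helper74).

* `ramificationIdx_eq_one_of_unramified`: bridge from the elementary `UnramifiedEverywhere` of `S14/Interface.lean` to
  Mathlib's ramification index.
* `exists_map_eq_of_invariant`: ambiguous ideals: in an unramified Galois extension of number fields every
  Galois-invariant ideal of the ring of integers is extended from the base.
-/
import Mathlib
import Fermat.Agent.S14.Interface

set_option autoImplicit false

namespace Fermat.Agent.S14Amb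

open NumberField Fermat.Agent.S14
open scoped Pointwise

variable (E M : Type) [Field E] [NumberField E] [Field M] [NumberField M]
  [Algebra E M] [IsGalois E M]

omit [NumberField M] in
/-- The pointwise action of the Galois group on ideals of the ring of integers is `Ideal.map` of
the restricted automorphism. -/
theorem smul_eq_map_galRestrict (σ : M ≃ₐ[E] M) (I : Ideal (𝓞 M)) :
    σ • I = I.map (galRestrict (𝓞 E) E M (𝓞 M) σ) := by
  rw [Ideal.pointwise_smul_def]
  have h : ∀ x : 𝓞 M, MulSemiringAction.toRingHom (M ≃ₐ[E] M) (𝓞 M) σ x =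
      galRestrict (𝓞 E) E M (𝓞 M) σ x := by
    intro x
    apply RingOfIntegers.ext
    exact (algebraMap_galRestrict_apply (𝓞 E) σ x).symm
  apply le_antisymm
  · rw [Ideal.map_le_iff_le_comap]
    intro x hx
    rw [Ideal.mem_comap, h]
    exact Ideal.mem_map_of_mem _ hx
  · rw [Ideal.map_le_iff_le_comap]
    intro x hx
    rw [Ideal.mem_comap, ← h]
    exact Ideal.mem_map_of_mem _ hx

variable {E M}

omit [NumberField E] [IsGalois E M] in
/-- In an extension which is unramified in the sense of `UnramifiedEverywhere`, Mathlib's inertia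
groups are trivial. -/
theorem inertia_eq_bot (hunr : UnramifiedEverywhere E M) (P : Ideal (𝓞 M)) [hP : P.IsPrime]
    (hP0 : P ≠ ⊥) : Ideal.inertia (M ≃ₐ[E] M) P = ⊥ := by
  rw [eq_bot_iff]
  intro σ hσ
  rw [Subgroup.mem_bot]
  refine hunr P hP hP0 σ ?_
  intro x
  exact ⟨σ • x - x, hσ x, rfl⟩

/-- Bridge from `UnramifiedEverywhere` to Mathlib's ramification index. -/
theorem ramificationIdx_eq_one_of_unramified (hunr : UnramifiedEverywhere E M)
    (P : Ideal (𝓞 M)) [hP : P.IsPrime] (hP0 : P ≠ ⊥) :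
    P.ramificationIdx (𝓞 E) = 1 := by
  have h1 := Ideal.card_inertia_eq_ramificationIdxIn (G := M ≃ₐ[E] M) (P.under (𝓞 E)) P
  have h2 := Ideal.ramificationIdxIn_eq_ramificationIdx (P.under (𝓞 E)) P (M ≃ₐ[E] M)
  rw [← h2, ← h1, inertia_eq_bot hunr P hP0]
  exact Nat.card_unique

/-- An ideal extended from the base is Galois-invariant. -/
theorem smul_map_algebraMap (σ : M ≃ₐ[E] M) (J : Ideal (𝓞 E)) :
    σ • J.map (algebraMap (𝓞 E) (𝓞 M)) = J.map (algebraMap (𝓞 E) (𝓞 M)) := by
  rw [Ideal.pointwise_smul_def, Ideal.map_map]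
  congr 1
  ext x
  simp

/-- **Ambiguous ideals.** In an unramified Galois extension of number fields, a Galois-invariant
ideal of the ring of integers is extended from the base (pointwise-action form). -/
theorem exists_map_eq_of_smul_eq (hunr : UnramifiedEverywhere E M) (I : Ideal (𝓞 M))
    (hI : ∀ σ : M ≃ₐ[E] M, σ • I = I) :
    ∃ J : Ideal (𝓞 E), J.map (algebraMap (𝓞 E) (𝓞 M)) = I := by
  induction I using WellFoundedGT.induction with
  | ind I ih =>
  by_cases h0 : I = ⊥
  · exact ⟨⊥, by rw [h0, Ideal.map_bot]⟩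
  by_cases h1 : I = ⊤
  · exact ⟨⊤, by rw [h1, Ideal.map_top]⟩
  obtain ⟨P, hPmax, hIP⟩ := Ideal.exists_le_maximal I h1
  have hPprime : P.IsPrime := hPmax.isPrime
  have hP0 : P ≠ ⊥ := fun h => h0 (le_bot_iff.mp (h ▸ hIP))
  set p : Ideal (𝓞 E) := P.under (𝓞 E) with hp
  have hpmax : p.IsMaximal := Ideal.IsMaximal.under (𝓞 E) P
  have hp0 : p ≠ ⊥ := Ideal.under_ne_bot (𝓞 E) hP0
  have hprod := Ideal.map_algebraMap_eq_finsetProd_pow (R := 𝓞 M) (S := 𝓞 E) (p := p) hp0
  -- every prime over `p` contains `I`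
  have hle : ∀ Q ∈ (p.primesOver (𝓞 M)).toFinset, I ≤ Q := by
    intro Q hQ
    rw [Set.mem_toFinset] at hQ
    have := hQ.1
    have := hQ.2
    obtain ⟨σ, hσ⟩ := Ideal.exists_smul_eq_of_isGaloisGroup p P Q (M ≃ₐ[E] M)
    rw [← hσ, ← hI σ]
    exact Ideal.pointwise_smul_le_pointwise_smul_iff.mpr hIP
  have hram : ∀ Q ∈ (p.primesOver (𝓞 M)).toFinset, Q.ramificationIdx (𝓞 E) = 1 := by
    intro Q hQ
    rw [Set.mem_toFinset] at hQ
    have := hQ.1
    have hQ0 : Q ≠ ⊥ := by
      intro h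
      have h2 := hQ.2.over
      rw [h] at h2
      exact hp0 (by rw [h2]; exact Ideal.under_bot _ _)
    exact ramificationIdx_eq_one_of_unramified hunr Q hQ0
  have hprod' : p.map (algebraMap (𝓞 E) (𝓞 M)) = ∏ Q ∈ (p.primesOver (𝓞 M)).toFinset, Q ^ 1 := by
    rw [hprod]
    exact Finset.prod_congr rfl (fun Q hQ => by rw [hram Q hQ])
  have hinf : ((p.primesOver (𝓞 M)).toFinset.inf fun Q => Q ^ 1) =
      ∏ Q ∈ (p.primesOver (𝓞 M)).toFinset, Q ^ 1 := by
    refine IsDedekindDomain.inf_pow_eq_prod_of_prime _ _ _ ?_ ?_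
    · intro Q hQ
      rw [Set.mem_toFinset] at hQ
      have hQ0 : Q ≠ ⊥ := by
        intro h
        have h2 := hQ.2.over
        rw [h] at h2
        exact hp0 (by rw [h2]; exact Ideal.under_bot _ _)
      exact (Ideal.prime_iff_isPrime hQ0).mpr hQ.1
    · intro Q _ Q' _ h
      exact h
  have hIle : I ≤ p.map (algebraMap (𝓞 E) (𝓞 M)) := by
    rw [hprod', ← hinf]
    refine Finset.le_inf ?_
    intro Q hQ
    rw [pow_one]
    exact hle Q hQ
  obtain ⟨I', hI'⟩ := Ideal.dvd_iff_le.mpr hIle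
  have hpB0 : p.map (algebraMap (𝓞 E) (𝓞 M)) ≠ ⊥ := Ideal.map_ne_bot_of_ne_bot hp0
  have hI'0 : I' ≠ ⊥ := by
    intro h
    rw [h, Ideal.mul_bot] at hI'
    exact h0 hI'
  have hI'inv : ∀ σ : M ≃ₐ[E] M, σ • I' = I' := by
    intro σ
    have h2 := hI σ
    rw [hI', Ideal.pointwise_smul_def, Ideal.map_mul, ← Ideal.pointwise_smul_def,
      ← Ideal.pointwise_smul_def, smul_map_algebraMap] at h2
    exact mul_left_cancel₀ hpB0 h2
  have hlt : I < I' := by
    refine lt_of_le_of_ne (hI' ▸ Ideal.mul_le_right ) ?_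
    intro h
    have h2 : p.map (algebraMap (𝓞 E) (𝓞 M)) * I' = 1 * I' := by rw [one_mul, ← hI', h]
    have h3 := mul_right_cancel₀ hI'0 h2
    have h4 : p.map (algebraMap (𝓞 E) (𝓞 M)) ≤ P := Ideal.map_le_iff_le_comap.mpr le_rfl
    rw [h3, Ideal.one_eq_top] at h4
    exact hPmax.ne_top (top_le_iff.mp h4)
  obtain ⟨J', hJ'⟩ := ih I' hlt hI'inv
  exact ⟨p * J', by rw [Ideal.map_mul, hJ', ← hI']⟩

/-- **Ambiguous ideals**, `galRestrict` form. -/
theorem exists_map_eq_of_invariant (E M : Type) [Field E] [NumberField E] [Field M]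
    [NumberField M] [Algebra E M] [IsGalois E M] (hunr : UnramifiedEverywhere E M)
    (I : Ideal (𝓞 M))
    (hI : ∀ σ : M ≃ₐ[E] M, I.map (galRestrict (𝓞 E) E M (𝓞 M) σ) = I) :
    ∃ J : Ideal (𝓞 E), J.map (algebraMap (𝓞 E) (𝓞 M)) = I :=
  exists_map_eq_of_smul_eq hunr I (fun σ => by rw [smul_eq_map_galRestrict]; exact hI σ)

end Fermat.Agent.S14Amb
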