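/-
S14, (H1) first inequality: homomorphisms between class groups induced by maps of ideals
(action of an automorphism, relative norm, extension of ideals).  (helper26)
-/
import Mathlib

set_option autoImplicit false

open scoped nonZeroDivisors

namespace Fermat.Agent.S14FI

section general

variable {R S : Type*} [CommRing R] [IsDedekindDomain R]
  [CommRing S] [IsDedekindDomain S]

/-- A chosen integral representative of an ideal class. -/
noncomputable def clRep (c : ClassGroup S) : (Ideal S)⁰ := (ClassGroup.mk0_surjective c).choose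

@[simp] theorem mk0_clRep (c : ClassGroup S) : ClassGroup.mk0 (clRep c) = c :=
  (ClassGroup.mk0_surjective c).choose_spec

/-- A nonzero principal ideal as an element of `(Ideal S)⁰`. -/
def spanNZ (x : S) (hx : x ≠ 0) : (Ideal S)⁰ :=
  ⟨Ideal.span {x}, mem_nonZeroDivisors_iff_ne_zero.mpr
    (by rwa [Ne, Ideal.zero_eq_bot, Ideal.span_singleton_eq_bot])⟩

@[simp] theorem coe_spanNZ (x : S) (hx : x ≠ 0) : ((spanNZ x hx : (Ideal S)⁰) : Ideal S) =
    Ideal.span {x} := rfl

theorem mk0_spanNZ (x : S) (hx : x ≠ 0) : ClassGroup.mk0 (spanNZ x hx) = 1 :=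
  (ClassGroup.mk0_eq_one_iff _).mpr ⟨⟨x, rfl⟩⟩

theorem mk0_eq_mk0_iff_spanNZ {I J : (Ideal S)⁰} :
    ClassGroup.mk0 I = ClassGroup.mk0 J ↔
      ∃ (x y : S) (hx : x ≠ 0) (hy : y ≠ 0), spanNZ x hx * I = spanNZ y hy * J := by
  rw [ClassGroup.mk0_eq_mk0_iff]
  constructor
  · rintro ⟨x, y, hx, hy, h⟩
    exact ⟨x, y, hx, hy, Subtype.ext h⟩
  · rintro ⟨x, y, hx, hy, h⟩
    exact ⟨x, y, hx, hy, congrArg Subtype.val h⟩

variable (F : (Ideal S)⁰ →* (Ideal R)⁰)
  (hF : ∀ (x : S) (hx : x ≠ 0), ClassGroup.mk0 (F (spanNZ x hx)) = 1)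

include hF in
theorem mk0_map_eq_of_mk0_eq {I J : (Ideal S)⁰} (h : ClassGroup.mk0 I = ClassGroup.mk0 J) :
    ClassGroup.mk0 (F I) = ClassGroup.mk0 (F J) := by
  obtain ⟨x, y, hx, hy, hxy⟩ := mk0_eq_mk0_iff_spanNZ.mp h
  have h1 := congrArg (fun K => ClassGroup.mk0 (F K)) hxy
  simp only [map_mul, hF, one_mul] at h1
  exact h1

/-- The homomorphism of class groups induced by a multiplicative map of nonzero ideals which
preserves principal ideals. -/
noncomputable def clLift : ClassGroup S →* ClassGroup R where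
  toFun c := ClassGroup.mk0 (F (clRep c))
  map_one' := by
    have h : ClassGroup.mk0 (clRep (1 : ClassGroup S)) = ClassGroup.mk0 (1 : (Ideal S)⁰) := by
      rw [mk0_clRep, map_one]
    rw [mk0_map_eq_of_mk0_eq F hF h, map_one, map_one]
  map_mul' c c' := by
    have h : ClassGroup.mk0 (clRep (c * c')) = ClassGroup.mk0 (clRep c * clRep c') := by
      rw [mk0_clRep, map_mul, mk0_clRep, mk0_clRep]
    rw [mk0_map_eq_of_mk0_eq F hF h, map_mul, map_mul]

@[simp] theorem clLift_mk0 (I : (Ideal S)⁰) :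
    clLift F hF (ClassGroup.mk0 I) = ClassGroup.mk0 (F I) :=
  mk0_map_eq_of_mk0_eq F hF (mk0_clRep _)

end general

section equiv

variable {S S' : Type*} [CommRing S] [IsDedekindDomain S]
  [CommRing S'] [IsDedekindDomain S']

/-- The image of a nonzero ideal under a ring isomorphism. -/
def mapNZ (e : S ≃+* S') : (Ideal S)⁰ →* (Ideal S')⁰ where
  toFun I := ⟨(I : Ideal S).map (e : S →+* S'), mem_nonZeroDivisors_iff_ne_zero.mpr (by
    have hI : (I : Ideal S) ≠ ⊥ := by
      have := mem_nonZeroDivisors_iff_ne_zero.mp I.2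
      simpa using this
    rw [Ne, Ideal.zero_eq_bot]
    intro h
    exact hI ((Ideal.map_eq_bot_iff_of_injective (f := (e : S →+* S')) e.injective).mp h))⟩
  map_one' := by
    apply Subtype.ext
    simp [Ideal.one_eq_top, Ideal.map_top]
  map_mul' I J := by
    apply Subtype.ext
    simp [Ideal.map_mul]

@[simp] theorem coe_mapNZ (e : S ≃+* S') (I : (Ideal S)⁰) :
    ((mapNZ e I : (Ideal S')⁰) : Ideal S') = (I : Ideal S).map (e : S →+* S') := rfl

theorem mapNZ_spanNZ (e : S ≃+* S') (x : S) (hx : x ≠ 0) :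
    mapNZ e (spanNZ x hx) = spanNZ (e x) ((map_ne_zero_iff e e.injective).mpr hx) := by
  apply Subtype.ext
  simp [Ideal.map_span]

/-- The automorphism of the class group induced by a ring isomorphism. -/
noncomputable def clMap (e : S ≃+* S') : ClassGroup S →* ClassGroup S' :=
  clLift (mapNZ e) (fun x hx => by rw [mapNZ_spanNZ, mk0_spanNZ])

@[simp] theorem clMap_mk0 (e : S ≃+* S') (I : (Ideal S)⁰) :
    clMap e (ClassGroup.mk0 I) = ClassGroup.mk0 (mapNZ e I) :=
  clLift_mk0 _ _ I

end equiv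

section ext

variable {R S : Type*} [CommRing R] [IsDedekindDomain R]
  [CommRing S] [IsDedekindDomain S] [Algebra R S] [FaithfulSMul R S]

/-- Extension of nonzero ideals. -/
def extNZ : (Ideal R)⁰ →* (Ideal S)⁰ where
  toFun J := ⟨(J : Ideal R).map (algebraMap R S), mem_nonZeroDivisors_iff_ne_zero.mpr (by
    have hJ : (J : Ideal R) ≠ ⊥ := by
      have := mem_nonZeroDivisors_iff_ne_zero.mp J.2
      simpa using this
    rw [Ne, Ideal.zero_eq_bot,
      Ideal.map_eq_bot_iff_of_injective (FaithfulSMul.algebraMap_injective R S)]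
    exact hJ)⟩
  map_one' := by
    apply Subtype.ext
    simp [Ideal.one_eq_top, Ideal.map_top]
  map_mul' I J := by
    apply Subtype.ext
    simp [Ideal.map_mul]

@[simp] theorem coe_extNZ (J : (Ideal R)⁰) :
    ((extNZ J : (Ideal S)⁰) : Ideal S) = (J : Ideal R).map (algebraMap R S) := rfl

theorem extNZ_spanNZ (x : R) (hx : x ≠ 0) :
    (extNZ (spanNZ x hx) : (Ideal S)⁰) = spanNZ (algebraMap R S x)
      ((map_ne_zero_iff _ (FaithfulSMul.algebraMap_injective R S)).mpr hx) := by
  apply Subtype.ext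
  simp [Ideal.map_span]

variable (R S) in
/-- The homomorphism of class groups induced by extension of ideals. -/
noncomputable def clExt : ClassGroup R →* ClassGroup S :=
  clLift extNZ (fun x hx => by rw [extNZ_spanNZ, mk0_spanNZ])

@[simp] theorem clExt_mk0 (J : (Ideal R)⁰) :
    clExt R S (ClassGroup.mk0 J) = ClassGroup.mk0 (extNZ J) :=
  clLift_mk0 _ _ J

end ext

end Fermat.Agent.S14FI
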