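/-
S14, (H1) first inequality: the norm, the Galois action and the extension map on the class
groups of a Galois extension of number fields.  (helper26)
-/
import Mathlib
import Fermat.Agent.S14.Interface
import Fermat.Agent.S14.FirstIneq.ClassMaps

set_option autoImplicit false

open NumberField
open scoped nonZeroDivisors

namespace Fermat.Agent.S14FI

section norm

variable (E M : Type) [Field E] [NumberField E] [Field M] [NumberField M] [Algebra E M]

theorem intNorm_eq_norm (x : 𝓞 M) :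
    Algebra.intNorm (𝓞 E) (𝓞 M) x = RingOfIntegers.norm E x := by
  apply RingOfIntegers.ext
  rw [RingOfIntegers.coe_norm]
  exact Algebra.algebraMap_intNorm (A := 𝓞 E) (K := E) (L := M) (B := 𝓞 M) x

omit [NumberField M] in
theorem coe_ne_bot (I : (Ideal (𝓞 M))⁰) : (I : Ideal (𝓞 M)) ≠ ⊥ := by
  have := mem_nonZeroDivisors_iff_ne_zero.mp I.2
  simpa using this

/-- The relative norm on nonzero ideals. -/
noncomputable def normNZ : (Ideal (𝓞 M))⁰ →* (Ideal (𝓞 E))⁰ where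
  toFun I := ⟨Ideal.relNorm (𝓞 E) (I : Ideal (𝓞 M)), mem_nonZeroDivisors_iff_ne_zero.mpr (by
    rw [Ne, Ideal.zero_eq_bot, Ideal.relNorm_eq_bot_iff]
    exact coe_ne_bot M I)⟩
  map_one' := by
    apply Subtype.ext
    simp [Ideal.one_eq_top]
  map_mul' I J := by
    apply Subtype.ext
    simp

@[simp] theorem coe_normNZ (I : (Ideal (𝓞 M))⁰) :
    ((normNZ E M I : (Ideal (𝓞 E))⁰) : Ideal (𝓞 E)) = Ideal.relNorm (𝓞 E) (I : Ideal (𝓞 M)) :=
  rfl

theorem norm_ne_zero {x : 𝓞 M} (hx : x ≠ 0) : RingOfIntegers.norm E x ≠ 0 := by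
  intro h
  have h1 : Algebra.norm E (x : M) = 0 := by
    rw [← RingOfIntegers.coe_norm, h]
    rfl
  rw [Algebra.norm_eq_zero_iff] at h1
  exact hx (RingOfIntegers.ext h1)

theorem normNZ_spanNZ (x : 𝓞 M) (hx : x ≠ 0) :
    normNZ E M (spanNZ x hx) = spanNZ (RingOfIntegers.norm E x) (norm_ne_zero E M hx) := by
  apply Subtype.ext
  simp [Ideal.relNorm_singleton, intNorm_eq_norm]

/-- The norm on ideal classes. -/
noncomputable def clNorm : ClassGroup (𝓞 M) →* ClassGroup (𝓞 E) :=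
  clLift (normNZ E M) (fun x hx => by rw [normNZ_spanNZ, mk0_spanNZ])

@[simp] theorem clNorm_mk0 (I : (Ideal (𝓞 M))⁰) :
    clNorm E M (ClassGroup.mk0 I) = ClassGroup.mk0 (normNZ E M I) :=
  clLift_mk0 _ _ I

theorem mem_normClasses_iff (c : ClassGroup (𝓞 E)) :
    c ∈ Fermat.Agent.S14.normClasses E M ↔ c ∈ (clNorm E M).range := by
  constructor
  · rintro ⟨I, J, hJ, rfl⟩
    refine ⟨ClassGroup.mk0 I, ?_⟩
    rw [clNorm_mk0]
    congr 1
    exact Subtype.ext hJ.symm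
  · rintro ⟨d, rfl⟩
    obtain ⟨I, rfl⟩ := ClassGroup.mk0_surjective d
    exact ⟨I, normNZ E M I, rfl, (clNorm_mk0 E M I).symm⟩

end norm

section act

variable {E M : Type} [Field E] [NumberField E] [Field M] [NumberField M] [Algebra E M]

/-- The action of `τ ∈ Gal(M/E)` on `𝓞 M`, as a ring isomorphism. -/
noncomputable def intAct (τ : M ≃ₐ[E] M) : 𝓞 M ≃+* 𝓞 M :=
  (galRestrict (𝓞 E) E M (𝓞 M) τ).toRingEquiv

theorem intAct_apply (τ : M ≃ₐ[E] M) (x : 𝓞 M) :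
    intAct τ x = galRestrict (𝓞 E) E M (𝓞 M) τ x := rfl

@[simp] theorem coe_intAct (τ : M ≃ₐ[E] M) (x : 𝓞 M) : ((intAct τ x : 𝓞 M) : M) = τ (x : M) :=
  algebraMap_galRestrict_apply (𝓞 E) τ x

/-- The action of `τ ∈ Gal(M/E)` on nonzero ideals of `𝓞 M`. -/
noncomputable def idAct (τ : M ≃ₐ[E] M) : (Ideal (𝓞 M))⁰ →* (Ideal (𝓞 M))⁰ :=
  mapNZ (intAct τ)

theorem coe_idAct (τ : M ≃ₐ[E] M) (I : (Ideal (𝓞 M))⁰) :
    ((idAct τ I : (Ideal (𝓞 M))⁰) : Ideal (𝓞 M)) =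
      (I : Ideal (𝓞 M)).map (galRestrict (𝓞 E) E M (𝓞 M) τ) := rfl

/-- The action of `τ ∈ Gal(M/E)` on the class group of `M`. -/
noncomputable def clAct (τ : M ≃ₐ[E] M) : ClassGroup (𝓞 M) →* ClassGroup (𝓞 M) :=
  clMap (intAct τ)

@[simp] theorem clAct_mk0 (τ : M ≃ₐ[E] M) (I : (Ideal (𝓞 M))⁰) :
    clAct τ (ClassGroup.mk0 I) = ClassGroup.mk0 (idAct τ I) :=
  clMap_mk0 _ I

theorem norm_intAct (τ : M ≃ₐ[E] M) (x : 𝓞 M) :
    RingOfIntegers.norm E (intAct τ x) = RingOfIntegers.norm E x := by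
  apply RingOfIntegers.ext
  rw [RingOfIntegers.coe_norm, RingOfIntegers.coe_norm, coe_intAct]
  exact Algebra.norm_eq_of_algEquiv τ (x : M)

theorem normNZ_idAct (τ : M ≃ₐ[E] M) (I : (Ideal (𝓞 M))⁰) :
    normNZ E M (idAct τ I) = normNZ E M I := by
  apply Subtype.ext
  rw [coe_normNZ, coe_normNZ, coe_idAct]
  exact Ideal.relNorm_map_algEquiv (galRestrict (𝓞 E) E M (𝓞 M) τ) (I : Ideal (𝓞 M))

theorem clNorm_clAct (τ : M ≃ₐ[E] M) (c : ClassGroup (𝓞 M)) :
    clNorm E M (clAct τ c) = clNorm E M c := by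
  obtain ⟨I, rfl⟩ := ClassGroup.mk0_surjective c
  rw [clAct_mk0, clNorm_mk0, clNorm_mk0, normNZ_idAct]

/-- `c ↦ τ c / c` on the class group of `M`. -/
noncomputable def clTwist (τ : M ≃ₐ[E] M) : ClassGroup (𝓞 M) →* ClassGroup (𝓞 M) where
  toFun c := clAct τ c / c
  map_one' := by simp
  map_mul' c d := by
    rw [map_mul]
    exact mul_div_mul_comm _ _ _ _

@[simp] theorem clTwist_apply (τ : M ≃ₐ[E] M) (c : ClassGroup (𝓞 M)) :
    clTwist τ c = clAct τ c / c := rfl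

theorem mem_ker_clTwist (τ : M ≃ₐ[E] M) (c : ClassGroup (𝓞 M)) :
    c ∈ (clTwist τ).ker ↔ clAct τ c = c := by
  rw [MonoidHom.mem_ker, clTwist_apply, div_eq_one]

theorem range_clTwist_le_ker_clNorm (τ : M ≃ₐ[E] M) :
    (clTwist τ).range ≤ (clNorm E M).ker := by
  rintro _ ⟨c, rfl⟩
  rw [MonoidHom.mem_ker, clTwist_apply, map_div, clNorm_clAct, div_self']

end act

end Fermat.Agent.S14FI
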