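/-
S14, (H1) first inequality: interface between the unit Herbrand quotient ((A)+(B)) and the
class-group count ((C)+(D)).  (helper26)
-/
import Mathlib
import Fermat.Agent.S14.Interface

set_option autoImplicit false

open NumberField

namespace Fermat.Agent.S14FI

variable (E M : Type) [Field E] [NumberField E] [Field M] [NumberField M] [Algebra E M]

/-- The norm on units `(𝓞 M)ˣ → (𝓞 E)ˣ`. -/
noncomputable def unitNorm : (𝓞 M)ˣ →* (𝓞 E)ˣ :=
  Units.map (RingOfIntegers.norm E : 𝓞 M →* 𝓞 E)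

variable {E M}

/-- The action of `Gal(M/E)` on the units of `𝓞 M`. -/
noncomputable def unitAct (τ : M ≃ₐ[E] M) : (𝓞 M)ˣ →* (𝓞 M)ˣ :=
  Units.map ((galRestrict (𝓞 E) E M (𝓞 M) τ : 𝓞 M ≃ₐ[𝓞 E] 𝓞 M) : 𝓞 M →* 𝓞 M)

/-- `v ↦ τ v / v` on units. -/
noncomputable def unitTwist (τ : M ≃ₐ[E] M) : (𝓞 M)ˣ →* (𝓞 M)ˣ where
  toFun v := unitAct τ v / v
  map_one' := by simp
  map_mul' v w := by
    rw [map_mul]
    exact mul_div_mul_comm _ _ _ _

@[simp] theorem unitTwist_apply (τ : M ≃ₐ[E] M) (v : (𝓞 M)ˣ) :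
    unitTwist τ v = unitAct τ v / v := rfl

/-- **Unit index relation** (= Herbrand quotient of the units is `1/p`):
`[ker N : (τ - 1) E_M] = p * [E_E : N E_M]`, and the latter index is finite. -/
def UnitIndex : Prop :=
  ∀ (p : ℕ) (E M : Type) [Field E] [NumberField E] [Field M] [NumberField M] [Algebra E M]
    [IsGalois E M] (τ : M ≃ₐ[E] M), p.Prime → p ≠ 2 → Module.finrank E M = p → τ ≠ 1 →
    (unitNorm E M).range.index ≠ 0 ∧
      (unitTwist τ).range.relIndex (unitNorm E M).ker = p * (unitNorm E M).range.index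

/-- Target of (C)+(D): the first inequality from the unit index relation and the two
ambiguous-ideal lemmas. -/
def FirstIneqOfUnitIndex : Prop := UnitIndex → Fermat.Agent.S14.FirstIneq

end Fermat.Agent.S14FI
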