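/-
S14, (H1) first inequality, parts (C)+(D): statements of the two arithmetic inputs of the
class-group count.  (helper26)

Notation: `G = Gal(M/E)` cyclic of prime order `p` generated by `τ`, `j = clExt : Cl_E → Cl_M`,
`N = clNorm : Cl_M → Cl_E`.
-/
import Mathlib
import Fermat.Agent.S14.Interface
import Fermat.Agent.S14.FirstIneq.UnitIndex
import Fermat.Agent.S14.FirstIneq.ClassNorm

set_option autoImplicit false

open NumberField
open scoped nonZeroDivisors

namespace Fermat.Agent.S14FI

/-- **(C1) Hilbert 90 + ambiguous ideals.**  If `(x) τI = (y) I` with `N y = N x`, then the class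
of `I` is extended from `E`.
(Proof: `y / x` has norm one, so by Hilbert 90 there is `a ≠ 0` in `𝓞 M` with `y * τ a = x * a`;
then `(a) I` is `τ`-invariant, hence `G`-invariant, hence extended from `E` by
`S14Amb.exists_map_eq_of_invariant`.) -/
def InvClass : Prop :=
  ∀ (p : ℕ) (E M : Type) [Field E] [NumberField E] [Field M] [NumberField M] [Algebra E M]
    [IsGalois E M] (τ : M ≃ₐ[E] M), p.Prime → Module.finrank E M = p → τ ≠ 1 →
    Fermat.Agent.S14.UnramifiedEverywhere E M →
    ∀ (I : (Ideal (𝓞 M))⁰) (x y : 𝓞 M) (hx : x ≠ 0) (hy : y ≠ 0),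
      spanNZ x hx * idAct τ I = spanNZ y hy * I →
      RingOfIntegers.norm E y = RingOfIntegers.norm E x →
      ClassGroup.mk0 I ∈ (clExt (𝓞 E) (𝓞 M)).range

/-- **(C2) capitulation kernel.**  `[ker N_units : (τ - 1) units] ≤ |ker j|`.
(Proof: for a unit `u` of norm one, integral Hilbert 90 gives `ε ≠ 0` with `u * τ ε = ε`; then `(ε)`
is `G`-invariant, so `(ε) = J 𝓞_M`, and `u ↦ [J] ∈ ker j` is injective modulo `(τ - 1) units`.) -/
def CapKer : Prop :=
  ∀ (p : ℕ) (E M : Type) [Field E] [NumberField E] [Field M] [NumberField M] [Algebra E M]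
    [IsGalois E M] (τ : M ≃ₐ[E] M), p.Prime → Module.finrank E M = p → τ ≠ 1 →
    Fermat.Agent.S14.UnramifiedEverywhere E M →
    (unitTwist τ).range.relIndex (unitNorm E M).ker ≤ Nat.card (clExt (𝓞 E) (𝓞 M)).ker

/-- **(C3) invariant classes.**  `|Cl_M^τ| ≤ |j(Cl_E)| * [units_E : N units_M]`. -/
def InvCount : Prop :=
  ∀ (p : ℕ) (E M : Type) [Field E] [NumberField E] [Field M] [NumberField M] [Algebra E M]
    [IsGalois E M] (τ : M ≃ₐ[E] M), p.Prime → Module.finrank E M = p → τ ≠ 1 →
    Fermat.Agent.S14.UnramifiedEverywhere E M → (unitNorm E M).range.index ≠ 0 →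
    Nat.card (clTwist τ).ker ≤
      Nat.card (clExt (𝓞 E) (𝓞 M)).range * (unitNorm E M).range.index

end Fermat.Agent.S14FI
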