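import Mathlib

set_option autoImplicit false

open NumberField

namespace Fermat.Agent.S14FI

/-- (B) Unit ranks in a Galois extension of odd degree: `rank M + 1 = [M : E] * (rank E + 1)`. -/
theorem units_rank_add_one (E M : Type*) [Field E] [NumberField E] [Field M] [NumberField M]
    [Algebra E M] [IsGalois E M] (hodd : Odd (Module.finrank E M)) :
    NumberField.Units.rank M + 1 = Module.finrank E M * (NumberField.Units.rank E + 1) := by
  have h1 : IsUnramifiedAtInfinitePlaces E M := IsUnramifiedAtInfinitePlaces_of_odd_finrank hodd
  have h2 := IsUnramifiedAtInfinitePlaces.card_infinitePlace E M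
  have h3 : 0 < Fintype.card (InfinitePlace M) := Fintype.card_pos
  have h4 : 0 < Fintype.card (InfinitePlace E) := Fintype.card_pos
  unfold NumberField.Units.rank
  rw [Nat.sub_add_cancel h3, Nat.sub_add_cancel h4, h2, mul_comm]

end Fermat.Agent.S14FI
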