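/-
S14, (H1) first inequality, part (B): the unit group of `𝓞 M` as a module over `Gal(M/E)`,
`M/E` Galois of prime degree `p` with generator `τ`.  Bridge lemmas (u0)-(u4) consumed by the
Herbrand-quotient assembly of `UnitIndex`.  (helper9)
-/
import Mathlib
import Fermat.Agent.S14.FirstIneq.UnitIndex
import Fermat.Agent.S14.FirstIneq.UnitRank

set_option autoImplicit false
set_option linter.unusedSectionVars false

open NumberField

namespace Fermat.Agent.S14FI

variable {E M : Type} [Field E] [NumberField E] [Field M] [NumberField M] [Algebra E M]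

/-- The inclusion of units `(𝓞 E)ˣ → (𝓞 M)ˣ`. -/
noncomputable def unitIncl (E M : Type) [Field E] [NumberField E] [Field M] [NumberField M]
    [Algebra E M] : (𝓞 E)ˣ →* (𝓞 M)ˣ :=
  Units.map (algebraMap (𝓞 E) (𝓞 M) : 𝓞 E →* 𝓞 M)

theorem coe_coe_unitIncl (x : (𝓞 E)ˣ) :
    (((unitIncl E M x : (𝓞 M)ˣ) : 𝓞 M) : M) = algebraMap E M ((x : 𝓞 E) : E) := rfl

theorem unitIncl_injective : Function.Injective (unitIncl E M) := by
  intro a b h
  have h1 : (algebraMap (𝓞 E) (𝓞 M)) (a : 𝓞 E) = (algebraMap (𝓞 E) (𝓞 M)) (b : 𝓞 E) := by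
    have := congrArg (fun u : (𝓞 M)ˣ => (u : 𝓞 M)) h
    simpa [unitIncl] using this
  exact Units.ext (FaithfulSMul.algebraMap_injective (𝓞 E) (𝓞 M) h1)

theorem coe_unitAct (τ : M ≃ₐ[E] M) (u : (𝓞 M)ˣ) :
    ((unitAct τ u : (𝓞 M)ˣ) : 𝓞 M) = galRestrict (𝓞 E) E M (𝓞 M) τ (u : 𝓞 M) := rfl

theorem coe_coe_unitAct (τ : M ≃ₐ[E] M) (u : (𝓞 M)ˣ) :
    (((unitAct τ u : (𝓞 M)ˣ) : 𝓞 M) : M) = τ ((u : 𝓞 M) : M) := by
  rw [coe_unitAct]
  exact algebraMap_galRestrict_apply (𝓞 E) τ (u : 𝓞 M)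

theorem unit_ext_coe {u v : (𝓞 M)ˣ} (h : ((u : 𝓞 M) : M) = ((v : 𝓞 M) : M)) : u = v :=
  Units.ext (RingOfIntegers.ext h)

theorem unitAct_iterate (τ : M ≃ₐ[E] M) (i : ℕ) (u : (𝓞 M)ˣ) :
    (unitAct τ)^[i] u = unitAct (τ ^ i) u := by
  induction i with
  | zero =>
    apply unit_ext_coe
    rw [coe_coe_unitAct]
    simp
  | succ n ih =>
    rw [Function.iterate_succ_apply', ih]
    apply unit_ext_coe
    rw [coe_coe_unitAct, coe_coe_unitAct, coe_coe_unitAct, pow_succ']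
    rfl

theorem unitAct_unitIncl (τ : M ≃ₐ[E] M) (x : (𝓞 E)ˣ) :
    unitAct τ (unitIncl E M x) = unitIncl E M x := by
  apply unit_ext_coe
  rw [coe_coe_unitAct, coe_coe_unitIncl, AlgEquiv.commutes]

theorem coe_coe_prod_units {ι : Type*} (s : Finset ι) (f : ι → (𝓞 M)ˣ) :
    ((((∏ i ∈ s, f i : (𝓞 M)ˣ)) : 𝓞 M) : M) = ∏ i ∈ s, (((f i : (𝓞 M)ˣ) : 𝓞 M) : M) := by
  classical
  induction s using Finset.induction_on with
  | empty => simp
  | insert a s ha ih =>
    rw [Finset.prod_insert ha, Finset.prod_insert ha, Units.val_mul, ← ih]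
    simp

section prime

variable [IsGalois E M] {p : ℕ} (hp : p.Prime) (hfin : Module.finrank E M = p)
  (τ : M ≃ₐ[E] M) (hτ : τ ≠ 1)

include hp hfin

theorem gal_pow_prime_eq_one : τ ^ p = 1 := by
  have hcard : Nat.card (M ≃ₐ[E] M) = p := by
    rw [IsGalois.card_aut_eq_finrank, hfin]
  rw [← hcard]
  exact pow_card_eq_one'

include hτ

theorem gal_orderOf_eq : orderOf τ = p :=
  haveI := Fact.mk hp
  orderOf_eq_prime (gal_pow_prime_eq_one hp hfin τ) hτ

theorem gal_mem_zpowers (σ : M ≃ₐ[E] M) : σ ∈ Subgroup.zpowers τ := by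
  have hcard : Nat.card (M ≃ₐ[E] M) = p := by
    rw [IsGalois.card_aut_eq_finrank, hfin]
  have h1 : Nat.card (Subgroup.zpowers τ) = p := by
    rw [Nat.card_zpowers, gal_orderOf_eq hp hfin τ hτ]
  have h2 : Subgroup.zpowers τ = ⊤ := by
    apply Subgroup.eq_top_of_card_eq
    rw [h1, hcard]
  rw [h2]; trivial

omit hτ in
/-- (u0) -/
theorem unitAct_iterate_prime (u : (𝓞 M)ˣ) : (unitAct τ)^[p] u = u := by
  rw [unitAct_iterate, gal_pow_prime_eq_one hp hfin τ]
  apply unit_ext_coe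
  rw [coe_coe_unitAct]
  rfl

theorem gal_fixed_of_fixed (x : M) (hx : τ x = x) (σ : M ≃ₐ[E] M) : σ x = x := by
  have h1 : τ ∈ MulAction.stabilizer (M ≃ₐ[E] M) x := by
    rw [MulAction.mem_stabilizer_iff]
    exact hx
  have h2 : Subgroup.zpowers τ ≤ MulAction.stabilizer (M ≃ₐ[E] M) x :=
    (Subgroup.zpowers_le).mpr h1
  have h3 := h2 (gal_mem_zpowers hp hfin τ hτ σ)
  rw [MulAction.mem_stabilizer_iff] at h3
  exact h3

/-- (u1) -/
theorem mem_range_unitIncl_of_fixed (u : (𝓞 M)ˣ) (hu : unitAct τ u = u) :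
    u ∈ (unitIncl E M).range := by
  -- elements fixed by `τ` come from `𝓞 E`
  have key : ∀ w : (𝓞 M)ˣ, unitAct τ w = w →
      ∃ y : 𝓞 E, algebraMap E M (y : E) = ((w : 𝓞 M) : M) := by
    intro w hw
    have hτw : τ ((w : 𝓞 M) : M) = ((w : 𝓞 M) : M) := by
      rw [← coe_coe_unitAct, hw]
    have hall := gal_fixed_of_fixed hp hfin τ hτ _ hτw
    obtain ⟨x, hx⟩ := (IsGalois.mem_range_algebraMap_iff_fixed (F := E) (E := M) _).mpr hall
    have hint : IsIntegral ℤ x := by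
      have h1 : IsIntegral ℤ (algebraMap E M x) := by
        rw [hx]; exact RingOfIntegers.isIntegral_coe (w : 𝓞 M)
      exact (isIntegral_algebraMap_iff (FaithfulSMul.algebraMap_injective E M)).mp h1
    exact ⟨⟨x, hint⟩, hx⟩
  obtain ⟨y, hy⟩ := key u hu
  have hu' : unitAct τ u⁻¹ = u⁻¹ := by rw [map_inv, hu]
  obtain ⟨z, hz⟩ := key u⁻¹ hu'
  have hyz : y * z = 1 := by
    apply RingOfIntegers.ext
    apply FaithfulSMul.algebraMap_injective E M
    have h0 : ((u : 𝓞 M) : M) * (((u⁻¹ : (𝓞 M)ˣ) : 𝓞 M) : M) = 1 := by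
      have h00 : (u : 𝓞 M) * ((u⁻¹ : (𝓞 M)ˣ) : 𝓞 M) = 1 := by
        rw [← Units.val_mul, mul_inv_cancel]; rfl
      simp
    have h1 : ((y * z : 𝓞 E) : E) = (y : E) * (z : E) := by simp
    rw [h1, map_mul, hy, hz, h0]
    simp
  have hzy : z * y = 1 := by rw [mul_comm]; exact hyz
  refine ⟨⟨y, z, hyz, hzy⟩, ?_⟩
  apply unit_ext_coe
  rw [coe_coe_unitIncl]
  exact hy

theorem gal_prod_eq_prod_range (f : (M ≃ₐ[E] M) → M) :
    ∏ σ : M ≃ₐ[E] M, f σ = ∏ i ∈ Finset.range p, f (τ ^ i) := by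
  classical
  have hord := gal_orderOf_eq hp hfin τ hτ
  symm
  apply Finset.prod_bij (fun i _ => τ ^ i)
  · intro i _; exact Finset.mem_univ _
  · intro i hi j hj hij
    have hi' : i < orderOf τ := by rw [hord]; exact Finset.mem_range.mp hi
    have hj' : j < orderOf τ := by rw [hord]; exact Finset.mem_range.mp hj
    exact pow_injOn_Iio_orderOf hi' hj' hij
  · intro σ _
    have hσ := gal_mem_zpowers hp hfin τ hτ σ
    have hfo : IsOfFinOrder τ := isOfFinOrder_of_finite τ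
    rw [← hfo.mem_powers_iff_mem_zpowers] at hσ
    obtain ⟨k, hk⟩ := (Submonoid.mem_powers_iff _ _).mp hσ
    refine ⟨k % p, Finset.mem_range.mpr (Nat.mod_lt _ hp.pos), ?_⟩
    rw [← hk, ← hord, pow_mod_orderOf]
  · intro i _; rfl

/-- (u2) -/
theorem unitIncl_unitNorm (u : (𝓞 M)ˣ) :
    unitIncl E M (unitNorm E M u) = ∏ i ∈ Finset.range p, (unitAct τ)^[i] u := by
  apply unit_ext_coe
  rw [coe_coe_unitIncl, coe_coe_prod_units]
  have h1 : (((unitNorm E M u : (𝓞 E)ˣ) : 𝓞 E) : E) = Algebra.norm E ((u : 𝓞 M) : M) := by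
    show ((RingOfIntegers.norm E (u : 𝓞 M) : 𝓞 E) : E) = _
    exact RingOfIntegers.coe_norm E (u : 𝓞 M)
  rw [h1, Algebra.norm_eq_prod_automorphisms E ((u : 𝓞 M) : M),
    gal_prod_eq_prod_range hp hfin τ hτ (fun σ => σ ((u : 𝓞 M) : M))]
  apply Finset.prod_congr rfl
  intro i _
  rw [unitAct_iterate, coe_coe_unitAct]

theorem ker_unitTwist_eq_range : (unitTwist τ).ker = (unitIncl E M).range := by
  ext u
  rw [MonoidHom.mem_ker, unitTwist_apply, div_eq_one]
  constructor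
  · intro h
    exact mem_range_unitIncl_of_fixed hp hfin τ hτ u h
  · rintro ⟨x, rfl⟩
    exact unitAct_unitIncl τ x

/-- `(𝓞 E)ˣ ≃* ker (unitTwist τ)`. -/
noncomputable def unitsEquivKerTwist : (𝓞 E)ˣ ≃* (unitTwist τ).ker :=
  (MonoidHom.ofInjective (unitIncl_injective (E := E) (M := M))).trans
    (MulEquiv.subgroupCongr (ker_unitTwist_eq_range hp hfin τ hτ).symm)

/-- (u3) -/
theorem finrank_ker_unitTwist :
    Module.finrank ℤ (Additive (unitTwist τ).ker) = NumberField.Units.rank E := by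
  rw [← NumberField.Units.finrank_eq E]
  exact ((MulEquiv.toAdditive (unitsEquivKerTwist hp hfin τ hτ)).toIntLinearEquiv.finrank_eq).symm

omit hτ in
/-- (u4) the rank relation used to compute the Herbrand exponent. -/
theorem units_rank_eq_add (hp2 : p ≠ 2) :
    NumberField.Units.rank M
      = NumberField.Units.rank E + (p - 1) * (NumberField.Units.rank E + 1) := by
  have hodd : Odd (Module.finrank E M) := by
    rw [hfin]; exact hp.odd_of_ne_two hp2
  have h := units_rank_add_one E M hodd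
  rw [hfin] at h
  obtain ⟨q, rfl⟩ : ∃ q, p = q + 1 := ⟨p - 1, (Nat.succ_pred_eq_of_pos hp.pos).symm⟩
  simp only [Nat.add_sub_cancel]
  have h' : NumberField.Units.rank M + 1
      = (NumberField.Units.rank E + q * (NumberField.Units.rank E + 1)) + 1 := by
    rw [h]; ring
  exact Nat.succ_injective h'

/-! ### The statements in the exact shape requested by the Herbrand assembly -/

omit hτ in
/-- (u0), interface form. -/
theorem unitBridge_u0 : ∀ u : (𝓞 M)ˣ, (unitAct τ)^[p] u = u :=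
  unitAct_iterate_prime hp hfin τ

/-- (u1), interface form. -/
theorem unitBridge_u1 : ∀ u : (𝓞 M)ˣ, unitAct τ u = u →
    u ∈ (Units.map (algebraMap (𝓞 E) (𝓞 M) : 𝓞 E →* 𝓞 M)).range :=
  mem_range_unitIncl_of_fixed hp hfin τ hτ

omit hp hfin hτ in
/-- (u1'), injectivity of `j`. -/
theorem unitBridge_u1_inj :
    Function.Injective (Units.map (algebraMap (𝓞 E) (𝓞 M) : 𝓞 E →* 𝓞 M)) :=
  unitIncl_injective

omit hp hfin hτ in
/-- (u1''), the image of `j` is fixed. -/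
theorem unitBridge_u1_fixed (σ : M ≃ₐ[E] M) (x : (𝓞 E)ˣ) :
    unitAct σ (Units.map (algebraMap (𝓞 E) (𝓞 M) : 𝓞 E →* 𝓞 M) x)
      = Units.map (algebraMap (𝓞 E) (𝓞 M) : 𝓞 E →* 𝓞 M) x :=
  unitAct_unitIncl σ x

/-- (u2), interface form. -/
theorem unitBridge_u2 : ∀ u : (𝓞 M)ˣ,
    Units.map (algebraMap (𝓞 E) (𝓞 M) : 𝓞 E →* 𝓞 M) (unitNorm E M u)
      = ∏ i ∈ Finset.range p, (unitAct τ)^[i] u :=
  unitIncl_unitNorm hp hfin τ hτ

/-- (u3), interface form. -/
theorem unitBridge_u3 :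
    Module.finrank ℤ (Additive (unitTwist τ).ker) = NumberField.Units.rank E :=
  finrank_ker_unitTwist hp hfin τ hτ

end prime

end Fermat.Agent.S14FI
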