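import Mathlib
import Fermat.Agent.S14.FirstIneq.CountInterface
import Fermat.Agent.S14.FirstIneq.Ambiguous
import Fermat.Agent.S14.FirstIneq.UnitBridge

/-!
# S14, (H1) first inequality, piece (C2): the capitulation kernel (helper70)

`capKer : CapKer`:  `[ker N_units : (τ - 1) units] ≤ |ker (Cl_E → Cl_M)|`.
-/

set_option autoImplicit false
set_option linter.unusedSectionVars false

open NumberField
open scoped nonZeroDivisors Pointwise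

namespace Fermat.Agent.S14FI

section capker

variable {E M : Type} [Field E] [NumberField E] [Field M] [NumberField M] [Algebra E M]
  [IsGalois E M]

lemma ck_norm_coe (u : (𝓞 M)ˣ) (hu : u ∈ (unitNorm E M).ker) :
    Algebra.norm E (algebraMap (𝓞 M) M (u : 𝓞 M)) = 1 := by
  have h1 : unitNorm E M u = 1 := hu
  have h2 : RingOfIntegers.norm E (u : 𝓞 M) = 1 := by
    have := congrArg (fun v : (𝓞 E)ˣ => (v : 𝓞 E)) h1
    simpa [unitNorm] using this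
  have h3 := congrArg (fun v : 𝓞 E => (v : E)) h2
  simpa using h3

/-- integral Hilbert 90 for a unit of norm one -/
lemma ck_hilbert90 {p : ℕ} (hp : p.Prime) (hfin : Module.finrank E M = p) (τ : M ≃ₐ[E] M)
    (hτ : τ ≠ 1) (u : (𝓞 M)ˣ) (hu : u ∈ (unitNorm E M).ker) :
    ∃ ε : 𝓞 M, ε ≠ 0 ∧ (u : 𝓞 M) * galRestrict (𝓞 E) E M (𝓞 M) τ ε = ε := by
  have : Fact p.Prime := ⟨hp⟩
  have hcard : Nat.card (M ≃ₐ[E] M) = p := by
    rw [IsGalois.card_aut_eq_finrank, hfin]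
  have : IsCyclic (M ≃ₐ[E] M) := isCyclic_of_prime_card hcard
  exact groupCohomology.exists_mul_galRestrict_of_norm_eq_one (A := 𝓞 E) (K := E) (L := M)
    (B := 𝓞 M) (g := τ) (gal_mem_zpowers hp hfin τ hτ) (ck_norm_coe u hu)


/-- the principal ideal `(ε)` with `u * τ ε = ε` is extended from the base -/
lemma ck_exists_J {p : ℕ} (hp : p.Prime) (hfin : Module.finrank E M = p) (τ : M ≃ₐ[E] M)
    (hτ : τ ≠ 1) (hunr : Fermat.Agent.S14.UnramifiedEverywhere E M) (ε : 𝓞 M) (hε : ε ≠ 0)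
    (u : (𝓞 M)ˣ) (hu : (u : 𝓞 M) * galRestrict (𝓞 E) E M (𝓞 M) τ ε = ε) :
    ∃ J : (Ideal (𝓞 E))⁰,
      (J : Ideal (𝓞 E)).map (algebraMap (𝓞 E) (𝓞 M)) = Ideal.span {ε} := by
  have hτI : τ • (Ideal.span {ε} : Ideal (𝓞 M)) = Ideal.span {ε} := by
    rw [Fermat.Agent.S14Amb.smul_eq_map_galRestrict, Ideal.map_span, Set.image_singleton]
    rw [Ideal.span_singleton_eq_span_singleton]
    exact ⟨u, by rw [mul_comm]; exact hu⟩
  have h1 : τ ∈ MulAction.stabilizer (M ≃ₐ[E] M) (Ideal.span {ε} : Ideal (𝓞 M)) := by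
    rw [MulAction.mem_stabilizer_iff]
    exact hτI
  have h2 : Subgroup.zpowers τ ≤ MulAction.stabilizer (M ≃ₐ[E] M) (Ideal.span {ε} : Ideal (𝓞 M)) :=
    (Subgroup.zpowers_le).mpr h1
  have hall : ∀ σ : M ≃ₐ[E] M, σ • (Ideal.span {ε} : Ideal (𝓞 M)) = Ideal.span {ε} := by
    intro σ
    have h3 := h2 (gal_mem_zpowers hp hfin τ hτ σ)
    rw [MulAction.mem_stabilizer_iff] at h3
    exact h3
  obtain ⟨J, hJ⟩ := Fermat.Agent.S14Amb.exists_map_eq_of_smul_eq hunr _ hall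
  have hJ0 : J ≠ ⊥ := by
    intro h
    rw [h, Ideal.map_bot] at hJ
    exact hε (Ideal.span_singleton_eq_bot.mp hJ.symm)
  exact ⟨⟨J, mem_nonZeroDivisors_iff_ne_zero.mpr hJ0⟩, hJ⟩

/-- the comparison of two Hilbert 90 solutions whose ideals have the same class below -/
lemma ck_twist_of_mk0_eq (τ : M ≃ₐ[E] M) (u u' : (𝓞 M)ˣ) (ε ε' : 𝓞 M) (hε : ε ≠ 0)
    (hu : (u : 𝓞 M) * galRestrict (𝓞 E) E M (𝓞 M) τ ε = ε)
    (hu' : (u' : 𝓞 M) * galRestrict (𝓞 E) E M (𝓞 M) τ ε' = ε')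
    (J J' : (Ideal (𝓞 E))⁰)
    (hJ : (J : Ideal (𝓞 E)).map (algebraMap (𝓞 E) (𝓞 M)) = Ideal.span {ε})
    (hJ' : (J' : Ideal (𝓞 E)).map (algebraMap (𝓞 E) (𝓞 M)) = Ideal.span {ε'})
    (h : ClassGroup.mk0 J = ClassGroup.mk0 J') :
    u⁻¹ * u' ∈ (unitTwist τ).range := by
  obtain ⟨a, b, ha, hb, hab⟩ := ClassGroup.mk0_eq_mk0_iff.mp h
  -- extend to `M`
  have hab' := congrArg (Ideal.map (algebraMap (𝓞 E) (𝓞 M))) hab
  rw [Ideal.map_mul, Ideal.map_mul, hJ, hJ', Ideal.map_span, Ideal.map_span,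
    Set.image_singleton, Set.image_singleton, Ideal.span_singleton_mul_span_singleton,
    Ideal.span_singleton_mul_span_singleton, Ideal.span_singleton_eq_span_singleton] at hab'
  obtain ⟨w, hw⟩ := hab'
  set t := galRestrict (𝓞 E) E M (𝓞 M) τ with ht
  set a' := algebraMap (𝓞 E) (𝓞 M) a with ha'
  set b' := algebraMap (𝓞 E) (𝓞 M) b with hb'
  have hta : t a' = a' := by rw [ha']; exact t.commutes a
  have htb : t b' = b' := by rw [hb']; exact t.commutes b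
  have ha0 : a' ≠ 0 := by
    rw [ha']
    exact (map_ne_zero_iff _ (FaithfulSMul.algebraMap_injective (𝓞 E) (𝓞 M))).mpr ha
  have htε : t ε ≠ 0 := (map_ne_zero_iff _ t.injective).mpr hε
  -- apply `t` to `a' ε w = b' ε'`
  have h1 : a' * t ε * t (w : 𝓞 M) = b' * t ε' := by
    have := congrArg t hw
    rw [map_mul, map_mul, map_mul, hta, htb] at this
    exact this
  -- `u w = u' t w`
  have h2 : (u : 𝓞 M) * (w : 𝓞 M) = (u' : 𝓞 M) * t (w : 𝓞 M) := by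
    have h3 : a' * t ε * ((u : 𝓞 M) * (w : 𝓞 M)) = a' * t ε * ((u' : 𝓞 M) * t (w : 𝓞 M)) := by
      calc a' * t ε * ((u : 𝓞 M) * (w : 𝓞 M)) = a' * ((u : 𝓞 M) * t ε) * (w : 𝓞 M) := by ring
        _ = a' * ε * (w : 𝓞 M) := by rw [hu]
        _ = b' * ε' := hw
        _ = b' * ((u' : 𝓞 M) * t ε') := by rw [hu']
        _ = (u' : 𝓞 M) * (b' * t ε') := by ring
        _ = (u' : 𝓞 M) * (a' * t ε * t (w : 𝓞 M)) := by rw [h1]
        _ = a' * t ε * ((u' : 𝓞 M) * t (w : 𝓞 M)) := by ring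
    exact mul_left_cancel₀ (mul_ne_zero ha0 htε) h3
  refine ⟨w⁻¹, ?_⟩
  rw [unitTwist_apply, map_inv, inv_div_inv]
  rw [div_eq_iff_eq_mul, eq_comm]
  apply Units.ext
  rw [Units.val_mul, Units.val_mul, coe_unitAct]
  have h4 : ((u⁻¹ : (𝓞 M)ˣ) : 𝓞 M) * (u : 𝓞 M) = 1 := by
    rw [← Units.val_mul, inv_mul_cancel, Units.val_one]
  calc ((u⁻¹ : (𝓞 M)ˣ) : 𝓞 M) * (u' : 𝓞 M) * t (w : 𝓞 M)
      = ((u⁻¹ : (𝓞 M)ˣ) : 𝓞 M) * ((u' : 𝓞 M) * t (w : 𝓞 M)) := by ring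
    _ = ((u⁻¹ : (𝓞 M)ˣ) : 𝓞 M) * ((u : 𝓞 M) * (w : 𝓞 M)) := by rw [h2]
    _ = (((u⁻¹ : (𝓞 M)ˣ) : 𝓞 M) * (u : 𝓞 M)) * (w : 𝓞 M) := by ring
    _ = (w : 𝓞 M) := by rw [h4, one_mul]


end capker

/-- **(C2) capitulation kernel.**  `[ker N_units : (τ - 1) units] ≤ |ker j|`. -/
theorem capKer : CapKer := by
  intro p E M _ _ _ _ _ _ τ hp hfin hτ hunr
  classical
  -- data chosen for each unit of norm one
  have hdata : ∀ u : (unitNorm E M).ker, ∃ (ε : 𝓞 M) (J : (Ideal (𝓞 E))⁰), ε ≠ 0 ∧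
      ((u : (𝓞 M)ˣ) : 𝓞 M) * galRestrict (𝓞 E) E M (𝓞 M) τ ε = ε ∧
      (J : Ideal (𝓞 E)).map (algebraMap (𝓞 E) (𝓞 M)) = Ideal.span {ε} := by
    intro u
    obtain ⟨ε, hε, hu⟩ := ck_hilbert90 hp hfin τ hτ u u.2
    obtain ⟨J, hJ⟩ := ck_exists_J hp hfin τ hτ hunr ε hε u hu
    exact ⟨ε, J, hε, hu, hJ⟩
  choose ε J hε hu hJ using hdata
  have hker : ∀ u, ClassGroup.mk0 (J u) ∈ (clExt (𝓞 E) (𝓞 M)).ker := by
    intro u
    rw [MonoidHom.mem_ker, clExt_mk0, ClassGroup.mk0_eq_one_iff, coe_extNZ, hJ u]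
    exact ⟨⟨ε u, rfl⟩⟩
  let f : (unitNorm E M).ker → (clExt (𝓞 E) (𝓞 M)).ker :=
    fun u => ⟨ClassGroup.mk0 (J u), hker u⟩
  have hf : ∀ u u', f u = f u' →
      ((u : (𝓞 M)ˣ))⁻¹ * (u' : (𝓞 M)ˣ) ∈ (unitTwist τ).range := by
    intro u u' h
    have h' : ClassGroup.mk0 (J u) = ClassGroup.mk0 (J u') := congrArg Subtype.val h
    exact ck_twist_of_mk0_eq τ u u' (ε u) (ε u') (hε u) (hu u) (hu u') (J u) (J u')
      (hJ u) (hJ u') h'
  -- counting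
  rw [Subgroup.relIndex, Subgroup.index]
  let F : ((unitNorm E M).ker ⧸ (unitTwist τ).range.subgroupOf (unitNorm E M).ker) →
      (clExt (𝓞 E) (𝓞 M)).ker := fun q => f q.out
  refine Nat.card_le_card_of_injective F ?_
  intro q q' h
  have h1 := hf _ _ h
  rw [← QuotientGroup.out_eq' q, ← QuotientGroup.out_eq' q', QuotientGroup.eq,
    Subgroup.mem_subgroupOf]
  simpa using h1

end Fermat.Agent.S14FI
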