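/-
S14, (H1) first inequality: elementary counting lemmas for groups.  (helper26)
-/
import Mathlib

set_option autoImplicit false

namespace Fermat.Agent.S14FI

/-- Counting with a relation: if every element of `K` is related to some element of the finite
type `X`, and two elements of `K` related to the same `x` differ by an element of `H`, then
`[K : H ∩ K] ≤ |X|`. -/
theorem relIndex_le_card_of_rel {A : Type*} [Group A] (K H : Subgroup A) {X : Type*} [Finite X]
    (R : A → X → Prop) (hex : ∀ a ∈ K, ∃ x, R a x)
    (hinj : ∀ a ∈ K, ∀ b ∈ K, ∀ x, R a x → R b x → a⁻¹ * b ∈ H) :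
    H.relIndex K ≤ Nat.card X := by
  classical
  have hch : ∀ q : K ⧸ H.subgroupOf K, ∃ x, R ((Quotient.out q : K) : A) x :=
    fun q => hex _ (Quotient.out q).2
  let f : K ⧸ H.subgroupOf K → X := fun q => (hch q).choose
  have hf : ∀ q, R ((Quotient.out q : K) : A) (f q) := fun q => (hch q).choose_spec
  have hinjf : Function.Injective f := by
    intro q q' h
    have h1 := hinj _ (Quotient.out q).2 _ (Quotient.out q').2 (f q) (hf q) (h ▸ hf q')
    have h2 : ((Quotient.out q : K) : K ⧸ H.subgroupOf K) = (Quotient.out q' : K) := by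
      rw [QuotientGroup.eq]
      exact h1
    rw [QuotientGroup.out_eq', QuotientGroup.out_eq'] at h2
    exact h2
  exact Nat.card_le_card_of_injective f hinjf

/-- `|K| ≤ [K : H ∩ K] * |H|`. -/
theorem card_le_relIndex_mul_card {A : Type*} [Group A] [Finite A] (K H : Subgroup A) :
    Nat.card K ≤ H.relIndex K * Nat.card H := by
  have h1 := Subgroup.relIndex_mul_relIndex (⊥ : Subgroup A) (H ⊓ K) K bot_le inf_le_right
  rw [Subgroup.relIndex_bot_left, Subgroup.relIndex_bot_left, Subgroup.inf_relIndex_right] at h1
  rw [← h1, mul_comm]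
  exact Nat.mul_le_mul_left _ (Subgroup.card_le_of_le inf_le_left)

/-- If `t(A) ⊆ ker N` then `|N(A)| ≤ |ker t|`. -/
theorem card_range_le_card_ker {A B : Type*} [Group A] [Finite A] [Group B] (N : A →* B)
    (t : A →* A) (h : t.range ≤ N.ker) : Nat.card N.range ≤ Nat.card t.ker := by
  have h1 : Nat.card N.ker * Nat.card N.range = Nat.card A := by
    rw [← Subgroup.index_ker]; exact Subgroup.card_mul_index _
  have h2 : Nat.card t.ker * Nat.card t.range = Nat.card A := by
    rw [← Subgroup.index_ker]; exact Subgroup.card_mul_index _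
  have h3 : Nat.card t.range ≤ Nat.card N.ker := Subgroup.card_le_of_le h
  have h4 : 0 < Nat.card N.ker := Nat.card_pos
  have h5 : Nat.card N.ker * Nat.card N.range ≤ Nat.card N.ker * Nat.card t.ker := by
    rw [h1, ← h2, mul_comm]
    exact Nat.mul_le_mul_right _ h3
  exact Nat.le_of_mul_le_mul_left h5 h4

end Fermat.Agent.S14FI
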