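/-
S14, (H1) first inequality, part (C3): the number of invariant ideal classes,
`|Cl_M^τ| ≤ |j(Cl_E)| * [units_E : N units_M]`, from `InvClass`.  (helper26)
-/
import Mathlib
import Fermat.Agent.S14.FirstIneq.CountInterface
import Fermat.Agent.S14.FirstIneq.GroupCount

set_option autoImplicit false

open NumberField
open scoped nonZeroDivisors

namespace Fermat.Agent.S14FI

section general

variable {S : Type*} [CommRing S] [IsDedekindDomain S]

theorem nz_ne_bot (I : (Ideal S)⁰) : (I : Ideal S) ≠ ⊥ := by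
  have := mem_nonZeroDivisors_iff_ne_zero.mp I.2
  simpa using this

theorem nz_mul_right_cancel {a b c : (Ideal S)⁰} (h : a * c = b * c) : a = b := by
  apply Subtype.ext
  have h1 : (a : Ideal S) * (c : Ideal S) = (b : Ideal S) * (c : Ideal S) :=
    congrArg Subtype.val h
  exact mul_right_cancel₀ (nz_ne_bot c) h1

theorem spanNZ_mul (x y : S) (hx : x ≠ 0) (hy : y ≠ 0) :
    spanNZ x hx * spanNZ y hy = spanNZ (x * y) (mul_ne_zero hx hy) := by
  apply Subtype.ext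
  simp [Ideal.span_singleton_mul_span_singleton]

theorem spanNZ_congr {x y : S} (hx : x ≠ 0) (hy : y ≠ 0) (h : x = y) :
    spanNZ x hx = spanNZ y hy := by
  subst h; rfl

theorem spanNZ_unit_mul (v : Sˣ) (x : S) (hx : x ≠ 0) (hvx : (v : S) * x ≠ 0) :
    spanNZ ((v : S) * x) hvx = spanNZ x hx := by
  apply Subtype.ext
  simp only [coe_spanNZ]
  exact Ideal.span_singleton_mul_left_unit v.isUnit x

theorem exists_spanNZ_of_mk0_eq_one {I : (Ideal S)⁰} (h : ClassGroup.mk0 I = 1) :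
    ∃ (z : S) (hz : z ≠ 0), I = spanNZ z hz := by
  rw [ClassGroup.mk0_eq_one_iff] at h
  obtain ⟨z, hz⟩ := h.principal
  have hz0 : z ≠ 0 := by
    rintro rfl
    apply nz_ne_bot I
    rw [hz]
    simp
  exact ⟨z, hz0, Subtype.ext hz⟩

end general

section rel

variable {E M : Type} [Field E] [NumberField E] [Field M] [NumberField M] [Algebra E M]

theorem idAct_spanNZ (τ : M ≃ₐ[E] M) (z : 𝓞 M) (hz : z ≠ 0) :
    idAct τ (spanNZ z hz) =
      spanNZ (intAct τ z) ((map_ne_zero_iff _ (intAct τ).injective).mpr hz) :=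
  mapNZ_spanNZ _ z hz

/-- The relation between invariant classes and unit classes modulo norms: `c = [I]`,
`(x) τI = (y) I`, `N y = u N x`, `ξ = [u]`. -/
def InvRel (τ : M ≃ₐ[E] M) (c : ClassGroup (𝓞 M)) (ξ : (𝓞 E)ˣ ⧸ (unitNorm E M).range) : Prop :=
  ∃ (I : (Ideal (𝓞 M))⁰) (x y : 𝓞 M) (hx : x ≠ 0) (hy : y ≠ 0) (u : (𝓞 E)ˣ),
    ClassGroup.mk0 I = c ∧ spanNZ x hx * idAct τ I = spanNZ y hy * I ∧
      RingOfIntegers.norm E y = (u : 𝓞 E) * RingOfIntegers.norm E x ∧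
      (u : (𝓞 E)ˣ ⧸ (unitNorm E M).range) = ξ

theorem exists_invRel (τ : M ≃ₐ[E] M) (c : ClassGroup (𝓞 M)) (hc : c ∈ (clTwist τ).ker) :
    ∃ ξ, InvRel τ c ξ := by
  obtain ⟨I, rfl⟩ := ClassGroup.mk0_surjective c
  rw [mem_ker_clTwist, clAct_mk0] at hc
  obtain ⟨x, y, hx, hy, h⟩ := mk0_eq_mk0_iff_spanNZ.mp hc
  have hN := congrArg (normNZ E M) h
  rw [map_mul, map_mul, normNZ_idAct, normNZ_spanNZ, normNZ_spanNZ] at hN
  have hN' := nz_mul_right_cancel hN
  have hN'' : Ideal.span {RingOfIntegers.norm E x} = Ideal.span {RingOfIntegers.norm E y} :=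
    congrArg Subtype.val hN'
  rw [Ideal.span_singleton_eq_span_singleton] at hN''
  obtain ⟨u, hu⟩ := hN''
  exact ⟨(u : (𝓞 E)ˣ ⧸ (unitNorm E M).range), I, x, y, hx, hy, u, rfl, h,
    by rw [← hu, mul_comm], rfl⟩

theorem invRel_inj (τ : M ≃ₐ[E] M)
    (hIC : ∀ (I : (Ideal (𝓞 M))⁰) (x y : 𝓞 M) (hx : x ≠ 0) (hy : y ≠ 0),
      spanNZ x hx * idAct τ I = spanNZ y hy * I →
      RingOfIntegers.norm E y = RingOfIntegers.norm E x →
      ClassGroup.mk0 I ∈ (clExt (𝓞 E) (𝓞 M)).range)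
    (c c' : ClassGroup (𝓞 M)) (ξ : (𝓞 E)ˣ ⧸ (unitNorm E M).range)
    (h : InvRel τ c ξ) (h' : InvRel τ c' ξ) : c⁻¹ * c' ∈ (clExt (𝓞 E) (𝓞 M)).range := by
  obtain ⟨I, x, y, hx, hy, u, rfl, hI, hN, hu⟩ := h
  obtain ⟨I', x', y', hx', hy', u', rfl, hI', hN', hu'⟩ := h'
  have huu : u⁻¹ * u' ∈ (unitNorm E M).range := by
    rw [← QuotientGroup.eq, hu, hu']
  obtain ⟨v, hv⟩ := huu
  obtain ⟨I'', hI''⟩ := ClassGroup.mk0_surjective (ClassGroup.mk0 I)⁻¹
  have hprin : ClassGroup.mk0 (I * I'') = 1 := by rw [map_mul, hI'', mul_inv_cancel]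
  obtain ⟨z, hz0, hz⟩ := exists_spanNZ_of_mk0_eq_one hprin
  have hτz0 : intAct τ z ≠ 0 := (map_ne_zero_iff _ (intAct τ).injective).mpr hz0
  have hT : idAct τ I * idAct τ I'' = spanNZ (intAct τ z) hτz0 := by
    rw [← map_mul, hz, idAct_spanNZ]
  -- the relation for `I''`
  have hI2 : spanNZ y hy * spanNZ z hz0 * idAct τ I'' =
      spanNZ x hx * spanNZ (intAct τ z) hτz0 * I'' := by
    apply nz_mul_right_cancel (c := idAct τ I)
    have e1 : spanNZ y hy * spanNZ z hz0 * idAct τ I'' * idAct τ I =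
        spanNZ y hy * spanNZ z hz0 * (idAct τ I * idAct τ I'') := by ac_rfl
    have e2 : spanNZ x hx * spanNZ (intAct τ z) hτz0 * I'' * idAct τ I =
        (spanNZ x hx * idAct τ I) * spanNZ (intAct τ z) hτz0 * I'' := by ac_rfl
    have e3 : spanNZ y hy * I * spanNZ (intAct τ z) hτz0 * I'' =
        spanNZ y hy * spanNZ (intAct τ z) hτz0 * (I * I'') := by ac_rfl
    rw [e1, e2, hT, hI, e3, hz]
    ac_rfl
  -- the relation for `I' * I''`
  have hX0 : x' * y * z ≠ 0 := mul_ne_zero (mul_ne_zero hx' hy) hz0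
  have hvX0 : (v : 𝓞 M) * (x' * y * z) ≠ 0 := mul_ne_zero v.ne_zero hX0
  have hY0 : y' * x * intAct τ z ≠ 0 := mul_ne_zero (mul_ne_zero hy' hx) hτz0
  have key : spanNZ ((v : 𝓞 M) * (x' * y * z)) hvX0 * idAct τ (I' * I'') =
      spanNZ (y' * x * intAct τ z) hY0 * (I' * I'') := by
    rw [spanNZ_unit_mul v _ hX0, ← spanNZ_mul _ _ (mul_ne_zero hx' hy) hz0,
      ← spanNZ_mul _ _ hx' hy, ← spanNZ_mul _ _ (mul_ne_zero hy' hx) hτz0,
      ← spanNZ_mul _ _ hy' hx, map_mul]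
    have e1 : spanNZ x' hx' * spanNZ y hy * spanNZ z hz0 * (idAct τ I' * idAct τ I'') =
        (spanNZ x' hx' * idAct τ I') * (spanNZ y hy * spanNZ z hz0 * idAct τ I'') := by ac_rfl
    rw [e1, hI', hI2]
    ac_rfl
  have hnorm : RingOfIntegers.norm E (y' * x * intAct τ z) =
      RingOfIntegers.norm E ((v : 𝓞 M) * (x' * y * z)) := by
    have hv' : RingOfIntegers.norm E (v : 𝓞 M) = ((u⁻¹ * u' : (𝓞 E)ˣ) : 𝓞 E) := by
      rw [← hv]; rfl
    have hu1 : ((u⁻¹ : (𝓞 E)ˣ) : 𝓞 E) * (u : 𝓞 E) = 1 := Units.inv_mul u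
    rw [map_mul, map_mul, map_mul, map_mul, map_mul, norm_intAct, hN, hN', hv', Units.val_mul]
    linear_combination (-(u' : 𝓞 E) * RingOfIntegers.norm E x' * RingOfIntegers.norm E x *
      RingOfIntegers.norm E z) * hu1
  have hfin := hIC (I' * I'') _ _ hvX0 hY0 key hnorm
  rw [map_mul, hI'', mul_comm] at hfin
  exact hfin

end rel

theorem invCount_of_invClass (h : InvClass) : InvCount := by
  intro p E M _ _ _ _ _ _ τ hp hdeg hτ hunr hidx
  have hfi : (unitNorm E M).range.FiniteIndex := ⟨hidx⟩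
  have hfin : Finite ((𝓞 E)ˣ ⧸ (unitNorm E M).range) := Subgroup.finite_quotient_of_finiteIndex
  have h1 := relIndex_le_card_of_rel (clTwist τ).ker (clExt (𝓞 E) (𝓞 M)).range (InvRel τ)
    (fun c hc => exists_invRel τ c hc)
    (fun c _ c' _ ξ hR hR' => invRel_inj τ (h p E M τ hp hdeg hτ hunr) c c' ξ hR hR')
  have h2 := card_le_relIndex_mul_card (clTwist τ).ker (clExt (𝓞 E) (𝓞 M)).range
  calc Nat.card (clTwist τ).ker
      ≤ (clExt (𝓞 E) (𝓞 M)).range.relIndex (clTwist τ).ker *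
          Nat.card (clExt (𝓞 E) (𝓞 M)).range := h2
    _ ≤ Nat.card ((𝓞 E)ˣ ⧸ (unitNorm E M).range) * Nat.card (clExt (𝓞 E) (𝓞 M)).range :=
        Nat.mul_le_mul_right _ h1
    _ = Nat.card (clExt (𝓞 E) (𝓞 M)).range * (unitNorm E M).range.index := by
        rw [mul_comm]; rfl

end Fermat.Agent.S14FI
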