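/-
S14, (H1) first inequality: assembly of the class-group count.  (helper26)

`|N(Cl_M)| ≤ |Cl_M^τ| ≤ |j(Cl_E)| * [U_E : N U_M]`, `p * [U_E : N U_M] = [ker N_U : (τ-1) U_M]
≤ |ker j|`, `|ker j| * |j(Cl_E)| = |Cl_E|`, hence `p * |N(Cl_M)| ≤ |Cl_E|`.
-/
import Mathlib
import Fermat.Agent.S14.FirstIneq.CountInterface
import Fermat.Agent.S14.FirstIneq.GroupCount
import Fermat.Agent.S14.FirstIneq.InvCount

set_option autoImplicit false

open NumberField
open scoped nonZeroDivisors

namespace Fermat.Agent.S14FI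

/-- The first inequality from its three inputs. -/
theorem firstIneq_of_inputs (hIC : InvClass) (hCK : CapKer) (hUI : UnitIndex) :
    Fermat.Agent.S14.FirstIneq := by
  intro p E M _ _ _ _ _ _ hp hp2 hdeg hunr
  have hcard : Nat.card (M ≃ₐ[E] M) = p := by rw [IsGalois.card_aut_eq_finrank, hdeg]
  obtain ⟨τ, hτ⟩ : ∃ τ : M ≃ₐ[E] M, τ ≠ 1 := by
    have hnt : Nontrivial (M ≃ₐ[E] M) := by
      rw [← Finite.one_lt_card_iff_nontrivial, hcard]
      exact hp.one_lt
    exact exists_ne 1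
  obtain ⟨hidx, hrel⟩ := hUI p E M τ hp hp2 hdeg hτ
  have hC3 := invCount_of_invClass hIC p E M τ hp hdeg hτ hunr hidx
  have hC2 := hCK p E M τ hp hdeg hτ hunr
  have hD := card_range_le_card_ker (clNorm E M) (clTwist τ) (range_clTwist_le_ker_clNorm τ)
  have hj : Nat.card (clExt (𝓞 E) (𝓞 M)).ker * Nat.card (clExt (𝓞 E) (𝓞 M)).range =
      Nat.card (ClassGroup (𝓞 E)) := by
    rw [← Subgroup.index_ker]; exact Subgroup.card_mul_index _
  by_contra hall
  have hall' : ∀ c : ClassGroup (𝓞 E), c ∈ Fermat.Agent.S14.normClasses E M := by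
    intro c
    by_contra hc
    exact hall ⟨c, hc⟩
  have hsurj : (clNorm E M).range = ⊤ := by
    rw [eq_top_iff]
    intro c _
    exact (mem_normClasses_iff E M c).mp (hall' c)
  have hcr : Nat.card (clNorm E M).range = Nat.card (ClassGroup (𝓞 E)) := by
    rw [hsurj]; exact Subgroup.card_top
  rw [hrel] at hC2
  have hr : 0 < Nat.card (clExt (𝓞 E) (𝓞 M)).range := Nat.card_pos
  have hi : 0 < (unitNorm E M).range.index := Nat.pos_of_ne_zero hidx
  have h1 : Nat.card (ClassGroup (𝓞 E)) ≤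
      Nat.card (clExt (𝓞 E) (𝓞 M)).range * (unitNorm E M).range.index :=
    hcr ▸ (hD.trans hC3)
  have h2 : p * (unitNorm E M).range.index * Nat.card (clExt (𝓞 E) (𝓞 M)).range ≤
      Nat.card (ClassGroup (𝓞 E)) := by
    rw [← hj]
    exact Nat.mul_le_mul_right _ hC2
  have h3 : p * ((unitNorm E M).range.index * Nat.card (clExt (𝓞 E) (𝓞 M)).range) ≤
      1 * ((unitNorm E M).range.index * Nat.card (clExt (𝓞 E) (𝓞 M)).range) := by
    rw [← mul_assoc, one_mul]
    exact (h2.trans h1).trans (le_of_eq (mul_comm _ _))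
  have h4 := Nat.le_of_mul_le_mul_right h3 (Nat.mul_pos hi hr)
  exact absurd hp.one_lt (not_lt.mpr h4)

end Fermat.Agent.S14FI
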