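import Fermat.Agent.S14.FirstIneq.CountInterface
import Fermat.Agent.S14.FirstIneq.Ambiguous

/-!
# S14 (H1), piece (C1): `InvClass` (helper13)
-/

set_option autoImplicit false

open NumberField
open scoped nonZeroDivisors Pointwise

namespace Fermat.Agent.S14FI

section ic

variable {E M : Type} [Field E] [NumberField E] [Field M] [NumberField M] [Algebra E M]
  [IsGalois E M]

/-- In a group of prime order every nontrivial element is a generator. -/
theorem ic_mem_zpowers {p : ℕ} (hp : p.Prime) (hdeg : Module.finrank E M = p)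
    {τ : M ≃ₐ[E] M} (hτ : τ ≠ 1) (σ : M ≃ₐ[E] M) : σ ∈ Subgroup.zpowers τ := by
  have hcard : Nat.card (M ≃ₐ[E] M) = p := by
    rw [IsGalois.card_aut_eq_finrank, hdeg]
  have : Fact p.Prime := ⟨hp⟩
  exact mem_zpowers_of_prime_card hcard hτ

/-- Hilbert 90 with cleared denominators: if `N y = N x` (`x, y ≠ 0` integers of `M`), there is
`a ≠ 0` in `𝓞 M` with `y * τ a = x * a`. -/
theorem ic_hilbert90 {p : ℕ} (hp : p.Prime) (hdeg : Module.finrank E M = p)
    {τ : M ≃ₐ[E] M} (hτ : τ ≠ 1) {x y : 𝓞 M} (hx : x ≠ 0) (hy : y ≠ 0)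
    (hN : RingOfIntegers.norm E y = RingOfIntegers.norm E x) :
    ∃ a : 𝓞 M, a ≠ 0 ∧ y * intAct τ a = x * a := by
  have hcard : Nat.card (M ≃ₐ[E] M) = p := by
    rw [IsGalois.card_aut_eq_finrank, hdeg]
  have : Fact p.Prime := ⟨hp⟩
  have hcyc : IsCyclic (M ≃ₐ[E] M) := isCyclic_of_prime_card hcard
  have hx' : (x : M) ≠ 0 := fun h => hx (RingOfIntegers.ext h)
  have hy' : (y : M) ≠ 0 := fun h => hy (RingOfIntegers.ext h)
  have hNx : Algebra.norm E (x : M) ≠ 0 := by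
    rw [Ne, Algebra.norm_eq_zero_iff]
    exact hx'
  have hη : Algebra.norm E ((y : M) / (x : M)) = 1 := by
    rw [div_eq_mul_inv, map_mul, Algebra.norm_inv, ← RingOfIntegers.coe_norm,
      ← RingOfIntegers.coe_norm, hN, RingOfIntegers.coe_norm]
    exact mul_inv_cancel₀ hNx
  obtain ⟨ε, hε⟩ := groupCohomology.exists_div_of_norm_eq_one (ic_mem_zpowers hp hdeg hτ) hη
  have hε0 : (ε : M) ≠ 0 := ε.ne_zero
  have hτε0 : τ (ε : M) ≠ 0 := (map_ne_zero_iff τ τ.injective).mpr hε0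
  obtain ⟨n, hn0, hn⟩ := exists_integral_multiples ℤ ℚ ({(ε : M)} : Finset M)
  have hn' : IsIntegral ℤ (n • (ε : M)) := hn _ (Finset.mem_singleton_self _)
  obtain ⟨a, ha⟩ : ∃ a : 𝓞 M, (a : M) = n • (ε : M) := ⟨⟨n • (ε : M), hn'⟩, rfl⟩
  refine ⟨a, ?_, ?_⟩
  · intro h
    rw [h] at ha
    have h1 : n • (ε : M) = 0 := ha.symm
    rw [smul_eq_zero] at h1
    rcases h1 with h1 | h1
    · exact hn0 h1
    · exact hε0 h1
  · apply RingOfIntegers.ext
    show (y : M) * ((intAct τ a : 𝓞 M) : M) = (x : M) * (a : M)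
    rw [coe_intAct, ha, map_zsmul]
    have h2 : (y : M) * τ (ε : M) = (x : M) * (ε : M) := by
      field_simp at hε
      rw [mul_comm (x : M), hε, mul_comm]
    rw [mul_smul_comm, mul_smul_comm, h2]

/-- The ideal `(a) I` is `τ`-invariant if `(x) τI = (y) I` and `y * τ a = x * a`. -/
theorem ic_map_eq {τ : M ≃ₐ[E] M} {I : Ideal (𝓞 M)} {x y a : 𝓞 M} (hx : x ≠ 0)
    (h : Ideal.span {x} * I.map (galRestrict (𝓞 E) E M (𝓞 M) τ) = Ideal.span {y} * I)
    (ha : y * intAct τ a = x * a) :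
    (Ideal.span {a} * I).map (galRestrict (𝓞 E) E M (𝓞 M) τ) = Ideal.span {a} * I := by
  have hx0 : (Ideal.span {x} : Ideal (𝓞 M)) ≠ 0 := by
    rw [Ne, Ideal.zero_eq_bot, Ideal.span_singleton_eq_bot]
    exact hx
  apply mul_left_cancel₀ hx0
  rw [Ideal.map_mul, Ideal.map_span, Set.image_singleton]
  have h1 : (galRestrict (𝓞 E) E M (𝓞 M) τ) a = intAct τ a := rfl
  rw [h1]
  calc Ideal.span {x} * (Ideal.span {intAct τ a} * I.map (galRestrict (𝓞 E) E M (𝓞 M) τ))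
      = Ideal.span {intAct τ a} *
          (Ideal.span {x} * I.map (galRestrict (𝓞 E) E M (𝓞 M) τ)) := by
        rw [← mul_assoc, mul_comm (Ideal.span {x}), mul_assoc]
    _ = Ideal.span {intAct τ a} * (Ideal.span {y} * I) := by rw [h]
    _ = Ideal.span {y * intAct τ a} * I := by
        rw [← mul_assoc, Ideal.span_singleton_mul_span_singleton, mul_comm (intAct τ a)]
    _ = Ideal.span {x * a} * I := by rw [ha]
    _ = Ideal.span {x} * (Ideal.span {a} * I) := by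
        rw [← mul_assoc, Ideal.span_singleton_mul_span_singleton]

end ic

/-- **(C1)** `InvClass`. -/
theorem invClass : InvClass := by
  intro p E M _ _ _ _ _ _ τ hp hdeg hτ hunr I x y hx hy h hN
  obtain ⟨a, ha0, ha⟩ := ic_hilbert90 hp hdeg hτ hx hy hN
  have h' : Ideal.span {x} * (I : Ideal (𝓞 M)).map (galRestrict (𝓞 E) E M (𝓞 M) τ) =
      Ideal.span {y} * (I : Ideal (𝓞 M)) := congrArg Subtype.val h
  have hinv := ic_map_eq hx h' ha
  -- invariance under the whole Galois group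
  have hτmem : τ ∈ MulAction.stabilizer (M ≃ₐ[E] M) (Ideal.span {a} * (I : Ideal (𝓞 M))) := by
    rw [MulAction.mem_stabilizer_iff, S14Amb.smul_eq_map_galRestrict]
    exact hinv
  have hall : ∀ σ : M ≃ₐ[E] M, σ • (Ideal.span {a} * (I : Ideal (𝓞 M))) =
      Ideal.span {a} * (I : Ideal (𝓞 M)) := by
    intro σ
    have h1 : Subgroup.zpowers τ ≤
        MulAction.stabilizer (M ≃ₐ[E] M) (Ideal.span {a} * (I : Ideal (𝓞 M))) :=
      Subgroup.zpowers_le.mpr hτmem
    exact MulAction.mem_stabilizer_iff.mp (h1 (ic_mem_zpowers hp hdeg hτ σ))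
  obtain ⟨J, hJ⟩ := S14Amb.exists_map_eq_of_smul_eq hunr _ hall
  have haI0 : Ideal.span {a} * (I : Ideal (𝓞 M)) ≠ ⊥ := by
    have := (spanNZ a ha0 * I).2
    exact mem_nonZeroDivisors_iff_ne_zero.mp this
  have hJ0 : J ≠ ⊥ := by
    rintro rfl
    rw [Ideal.map_bot] at hJ
    exact haI0 hJ.symm
  refine ⟨ClassGroup.mk0 ⟨J, mem_nonZeroDivisors_iff_ne_zero.mpr hJ0⟩, ?_⟩
  rw [clExt_mk0]
  have h2 : (extNZ ⟨J, mem_nonZeroDivisors_iff_ne_zero.mpr hJ0⟩ : (Ideal (𝓞 M))⁰) =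
      spanNZ a ha0 * I := Subtype.ext hJ
  rw [h2, map_mul, mk0_spanNZ, one_mul]

end Fermat.Agent.S14FI
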