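/-
S14, (H1)(B): the unit index relation from the abstract Herbrand quotient, given the
number-field bridge facts as hypotheses.  (helper86)
-/
import Fermat.Agent.Lib.Herbrand.Mul
import Fermat.Agent.S14.FirstIneq.UnitIndex
import Fermat.Agent.S14.FirstIneq.UnitRank

set_option autoImplicit false

open NumberField Module Finset

namespace Fermat.Agent.S14UI

open Fermat.Agent.Herbrand Fermat.Agent.S14FI

variable {E M : Type} [Field E] [NumberField E] [Field M] [NumberField M] [Algebra E M]

/-- The inclusion of units `(𝓞 E)ˣ → (𝓞 M)ˣ`. -/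
noncomputable def unitIncl (E M : Type) [Field E] [NumberField E] [Field M] [NumberField M]
    [Algebra E M] : (𝓞 E)ˣ →* (𝓞 M)ˣ :=
  Units.map (algebraMap (𝓞 E) (𝓞 M) : 𝓞 E →* 𝓞 M)

theorem unitIncl_injective : Function.Injective (unitIncl E M) := by
  refine Units.map_injective ?_
  exact FaithfulSMul.algebraMap_injective (𝓞 E) (𝓞 M)

theorem twistHom_unitAct (τ : M ≃ₐ[E] M) : twistHom (unitAct τ) = unitTwist τ := rfl

/-- The unit index relation, from the bridge facts:
* `h0`: `τ` has order dividing `p` on units;
* `h1`: units fixed by `τ` come from `E`; `h1'`: units of `E` are fixed;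
* `h2`: the norm is the product of the `τ^i`;
* `hrank`: `rank M + 1 = p * (rank E + 1)`. -/
theorem unitIndex_of_bridge (p : ℕ) (hp : p.Prime) (τ : M ≃ₐ[E] M)
    (h0 : ∀ u : (𝓞 M)ˣ, (unitAct τ)^[p] u = u)
    (h1 : ∀ u : (𝓞 M)ˣ, unitAct τ u = u → u ∈ (unitIncl E M).range)
    (h1' : ∀ e : (𝓞 E)ˣ, unitAct τ (unitIncl E M e) = unitIncl E M e)
    (h2 : ∀ u : (𝓞 M)ˣ, unitIncl E M (unitNorm E M u) = ∏ i ∈ range p, (unitAct τ)^[i] u)
    (hrank : NumberField.Units.rank M + 1 = p * (NumberField.Units.rank E + 1)) :
    (unitNorm E M).range.index ≠ 0 ∧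
      (unitTwist τ).range.relIndex (unitNorm E M).ker = p * (unitNorm E M).range.index := by
  have : Fact p.Prime := ⟨hp⟩
  obtain ⟨b, hb, hkey, hn0, hn1⟩ := herbrand_prime_cyclic_mul (p := p) (unitAct τ) h0
  -- identify the four subgroups
  have hker : (twistHom (unitAct τ)).ker = (unitIncl E M).range := by
    ext u
    rw [mem_ker_twistHom]
    constructor
    · exact h1 u
    · rintro ⟨e, rfl⟩
      exact h1' e
  have hnorm : Fermat.Agent.Herbrand.normHom p (unitAct τ) = (unitIncl E M).comp (unitNorm E M) := by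
    ext u
    rw [Fermat.Agent.Herbrand.normHom_apply, MonoidHom.comp_apply, h2]
  have hnker : (Fermat.Agent.Herbrand.normHom p (unitAct τ)).ker = (unitNorm E M).ker := by
    rw [hnorm]
    ext u
    simp only [MonoidHom.mem_ker, MonoidHom.comp_apply]
    constructor
    · intro h
      exact unitIncl_injective (by rw [h, map_one])
    · intro h
      rw [h, map_one]
  have hnrange : (Fermat.Agent.Herbrand.normHom p (unitAct τ)).range = (unitNorm E M).range.map (unitIncl E M) := by
    rw [hnorm, MonoidHom.range_eq_map, MonoidHom.range_eq_map, ← Subgroup.map_map]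
  have hh0 : (Fermat.Agent.Herbrand.normHom p (unitAct τ)).range.relIndex (twistHom (unitAct τ)).ker =
      (unitNorm E M).range.index := by
    rw [hker, hnrange, MonoidHom.range_eq_map (unitIncl E M),
      Subgroup.relIndex_map_map_of_injective _ _ unitIncl_injective, Subgroup.relIndex_top_right]
  -- ranks
  have hrM : finrank ℤ (Additive (𝓞 M)ˣ) = NumberField.Units.rank M := NumberField.Units.finrank_eq M
  have hrE : finrank ℤ (Additive (twistHom (unitAct τ)).ker) = NumberField.Units.rank E := by
    rw [← NumberField.Units.finrank_eq E]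
    have e1 : (𝓞 E)ˣ ≃* (unitIncl E M).range := MonoidHom.ofInjective unitIncl_injective
    have e2 : (twistHom (unitAct τ)).ker ≃* (unitIncl E M).range := MulEquiv.subgroupCongr hker
    exact (MulEquiv.toAdditive (e2.trans e1.symm)).toIntLinearEquiv.finrank_eq
  rw [hrM, hrE] at hb
  rw [hh0, hrE, hnker, twistHom_unitAct] at hkey
  rw [hh0] at hn0
  have hp1 : 0 < p - 1 := Nat.sub_pos_of_lt hp.one_lt
  have hbval : b = NumberField.Units.rank E + 1 := by
    have h3 : (p - 1) * b = (p - 1) * (NumberField.Units.rank E + 1) := by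
      have hpp : p = (p - 1) + 1 := (Nat.sub_add_cancel hp.one_lt.le).symm
      have : p * (NumberField.Units.rank E + 1) =
          (p - 1) * (NumberField.Units.rank E + 1) + (NumberField.Units.rank E + 1) := by
        conv_lhs => rw [hpp]
        ring
      omega
    exact Nat.eq_of_mul_eq_mul_left hp1 h3
  refine ⟨hn0, ?_⟩
  rw [hbval, pow_succ] at hkey
  have hpa : 0 < p ^ NumberField.Units.rank E := pow_pos hp.pos _
  have : p ^ NumberField.Units.rank E * ((unitTwist τ).range.relIndex (unitNorm E M).ker) =
      p ^ NumberField.Units.rank E * (p * (unitNorm E M).range.index) := by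
    rw [← hkey]; ring
  exact Nat.eq_of_mul_eq_mul_left hpa this

end Fermat.Agent.S14UI
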