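/-
S14, (H1) first inequality, part (B): the unit index relation `UnitIndex`
(Herbrand quotient of the units of an odd prime degree Galois extension is `1/p`).
Assembly of helper86's `unitIndex_of_bridge` (abstract Herbrand quotient) with the bridge
lemmas of `UnitBridge.lean`.  (helper9)
-/
import Fermat.Agent.S14.FirstIneq.UnitIndexCore
import Fermat.Agent.S14.FirstIneq.UnitBridge

set_option autoImplicit false

open NumberField

namespace Fermat.Agent.S14FI

/-- **(B)** The unit index relation: `[ker N : (τ - 1) E_M] = p * [E_E : N E_M]`. -/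
theorem unitIndex : UnitIndex := by
  intro p E M _ _ _ _ _ _ τ hp hp2 hfin hτ
  have hodd : Odd (Module.finrank E M) := by
    rw [hfin]; exact hp.odd_of_ne_two hp2
  have hrank := units_rank_add_one E M hodd
  rw [hfin] at hrank
  exact Fermat.Agent.S14UI.unitIndex_of_bridge p hp τ
    (unitBridge_u0 hp hfin τ)
    (unitBridge_u1 hp hfin τ hτ)
    (fun e => unitBridge_u1_fixed τ e)
    (unitBridge_u2 hp hfin τ hτ)
    hrank

end Fermat.Agent.S14FI
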