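/-
S14, (H1) first inequality: final wiring.  (helper26)
Inputs: `unitIndex` (helper9, helper86), `capKer` (helper70), `invClass` (helper13),
`firstIneq_of_inputs` (helper26), ambiguous ideals (helper74).
-/
import Mathlib
import Fermat.Agent.S14.FirstIneq.Count
import Fermat.Agent.S14.FirstIneq.CapKer
import Fermat.Agent.S14.FirstIneq.InvClass
import Fermat.Agent.S14.FirstIneq.UnitIndexProof

set_option autoImplicit false

namespace Fermat.Agent.S14FI

/-- **(H1) First inequality**: for an everywhere unramified Galois extension `M/E` of number
fields of odd prime degree, the norm map on ideal classes is not surjective. -/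
theorem firstIneq : Fermat.Agent.S14.FirstIneq :=
  firstIneq_of_inputs invClass capKer unitIndex

theorem firstIneqOfUnitIndex : FirstIneqOfUnitIndex :=
  fun h => firstIneq_of_inputs invClass capKer h

end Fermat.Agent.S14FI
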